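import Mathlib

/-!
# S16 (helper556 route), work package L-an / TH (analytic part): theta series of lattices

Mathlib-only.  Everything is stated for raw expressions, so that it applies verbatim to the
definitions `qf`, `thetaChar`, `thetaFun` of the S16 skeleton after unfolding.

* `posDef_coercive` : a positive definite real matrix satisfies `c ∑ xᵢ² ≤ xᵀ M x`.
* `summable_gauss`  : `x ↦ exp (-a ∑ xᵢ²)` is summable on `Fin n → ℤ`.
* `thetaLike_summable`, `thetaLike_mdiff`, `thetaLike_bdd` : a general series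
  `∑ₓ a(x) exp(π i z N(x))` (`‖a‖ ≤ 1`, `N ≥ 0`, Gaussian growth) is summable, holomorphic on `ℍ`
  and bounded at `i∞`.
* `even_quadForm`, `quadForm_pos`, `finite_quadForm_le` : arithmetic of even positive definite
  integral forms.
* `thetaNorm_bound` : the norm form `xᵀAx + 2 x·y + yᵀBy/p` (`A B = p`) of the theta series with
  characteristic is `≥ 0` and grows quadratically.
-/

set_option autoImplicit false
set_option linter.style.haveILetI false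

namespace Fermat.Agent.S16.H437

open Matrix UpperHalfPlane
open scoped Manifold

/-- A positive definite real matrix is coercive with respect to the sup norm. -/
theorem posDef_coercive_norm {ι : Type*} [Fintype ι] (M : Matrix ι ι ℝ) (hM : M.PosDef) :
    ∃ c : ℝ, 0 < c ∧ ∀ x : ι → ℝ, c * ‖x‖ ^ 2 ≤ x ⬝ᵥ (M *ᵥ x) := by
  classical
  rcases isEmpty_or_nonempty ι with hι | hι
  · refine ⟨1, one_pos, fun x => ?_⟩
    have : x = 0 := Subsingleton.elim _ _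
    subst this
    simp
  have hcont : Continuous (fun x : ι → ℝ => x ⬝ᵥ (M *ᵥ x)) := by
    unfold dotProduct Matrix.mulVec dotProduct
    fun_prop
  have hcpt : IsCompact (Metric.sphere (0 : ι → ℝ) 1) := isCompact_sphere 0 1
  have hne : (Metric.sphere (0 : ι → ℝ) 1).Nonempty := by
    haveI : Nontrivial (ι → ℝ) := Function.nontrivial
    exact NormedSpace.sphere_nonempty.mpr zero_le_one
  obtain ⟨x₀, hx₀, hmin⟩ := hcpt.exists_isMinOn hne hcont.continuousOn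
  have hx₀n : ‖x₀‖ = 1 := by simpa using hx₀
  have hx₀0 : x₀ ≠ 0 := by
    intro h; rw [h, norm_zero] at hx₀n; exact zero_ne_one hx₀n
  have hpos : 0 < x₀ ⬝ᵥ (M *ᵥ x₀) := by
    have := hM.dotProduct_mulVec_pos hx₀0
    simpa using this
  refine ⟨x₀ ⬝ᵥ (M *ᵥ x₀), hpos, fun x => ?_⟩
  rcases eq_or_ne x 0 with rfl | hx
  · simp
  have hnx : 0 < ‖x‖ := norm_pos_iff.mpr hx
  set u : ι → ℝ := (‖x‖)⁻¹ • x with hu
  have hun : u ∈ Metric.sphere (0 : ι → ℝ) 1 := by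
    simp [hu, norm_smul, hnx.ne']
  have h1 := hmin hun
  simp only [isMinOn_iff] at hmin
  have h2 : x₀ ⬝ᵥ (M *ᵥ x₀) ≤ u ⬝ᵥ (M *ᵥ u) := hmin u hun
  have h3 : u ⬝ᵥ (M *ᵥ u) = (‖x‖)⁻¹ ^ 2 * (x ⬝ᵥ (M *ᵥ x)) := by
    rw [hu, Matrix.mulVec_smul, smul_dotProduct, dotProduct_smul]
    simp only [smul_eq_mul]
    ring
  rw [h3] at h2
  have h4 : x₀ ⬝ᵥ (M *ᵥ x₀) * ‖x‖ ^ 2 ≤ (‖x‖)⁻¹ ^ 2 * (x ⬝ᵥ (M *ᵥ x)) * ‖x‖ ^ 2 :=
    mul_le_mul_of_nonneg_right h2 (by positivity)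
  have h5 : (‖x‖)⁻¹ ^ 2 * (x ⬝ᵥ (M *ᵥ x)) * ‖x‖ ^ 2 = x ⬝ᵥ (M *ᵥ x) := by
    field_simp
  linarith

/-- A positive definite real matrix is coercive: `c ∑ xᵢ² ≤ xᵀ M x`. -/
theorem posDef_coercive {ι : Type*} [Fintype ι] (M : Matrix ι ι ℝ) (hM : M.PosDef) :
    ∃ c : ℝ, 0 < c ∧ ∀ x : ι → ℝ, c * ∑ i, x i ^ 2 ≤ x ⬝ᵥ (M *ᵥ x) := by
  obtain ⟨c, hc, h⟩ := posDef_coercive_norm M hM
  refine ⟨c / (Fintype.card ι + 1), by positivity, fun x => ?_⟩
  have h1 : ∑ i, x i ^ 2 ≤ (Fintype.card ι + 1) * ‖x‖ ^ 2 := by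
    have : ∀ i ∈ Finset.univ, x i ^ 2 ≤ ‖x‖ ^ 2 := by
      intro i _
      have := norm_le_pi_norm x i
      rw [Real.norm_eq_abs] at this
      calc x i ^ 2 = |x i| ^ 2 := (sq_abs _).symm
        _ ≤ ‖x‖ ^ 2 := by gcongr
    have := Finset.sum_le_card_nsmul _ _ _ this
    simp only [Finset.card_univ, nsmul_eq_mul] at this
    have h0 : 0 ≤ ‖x‖ ^ 2 := by positivity
    linarith
  have h2 := h x
  have hcard : (0 : ℝ) < Fintype.card ι + 1 := by positivity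
  calc c / (Fintype.card ι + 1) * ∑ i, x i ^ 2
      ≤ c / (Fintype.card ι + 1) * ((Fintype.card ι + 1) * ‖x‖ ^ 2) := by gcongr
    _ = c * ‖x‖ ^ 2 := by field_simp
    _ ≤ _ := h2

/-- Product of a nonnegative summable function over the coordinates is summable on `Fin n → ℤ`. -/
theorem summable_pi_prod {α : Type*} (g : α → ℝ) (hg : Summable g) (hg0 : ∀ k, 0 ≤ g k) :
    ∀ n : ℕ, Summable (fun x : Fin n → α => ∏ i, g (x i))
  | 0 => by
    exact (hasSum_fintype _).summable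
  | n + 1 => by
    have ih := summable_pi_prod g hg hg0 n
    have h := Summable.mul_of_nonneg hg ih (fun k => hg0 k)
      (fun x => Finset.prod_nonneg fun i _ => hg0 _)
    have h2 := ((Fin.consEquiv (fun _ : Fin (n + 1) => α)).symm.summable_iff
      (f := fun x : α × (Fin n → α) => g x.1 * ∏ i, g (x.2 i))).mpr h
    refine h2.congr fun x => ?_
    simp [Fin.prod_univ_succ, Fin.consEquiv, Fin.tail]

/-- The Gaussian `x ↦ exp (-a ∑ xᵢ²)` is summable on `Fin n → ℤ`. -/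
theorem summable_gauss (n : ℕ) {a : ℝ} (ha : 0 < a) :
    Summable (fun x : Fin n → ℤ => Real.exp (-(a * ∑ i, ((x i : ℤ) : ℝ) ^ 2))) := by
  have h1 : Summable (fun k : ℤ => Real.exp (-(a * (k : ℝ) ^ 2))) := by
    have := summable_pow_mul_jacobiTheta₂_term_bound 0 (T := a / Real.pi) (by positivity) 0
    refine this.congr fun k => ?_
    simp only [pow_zero, one_mul, zero_mul, mul_zero, sub_zero]
    congr 1
    field_simp
  have h2 := summable_pi_prod _ h1 (fun k => (Real.exp_pos _).le) n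
  refine h2.congr fun x => ?_
  rw [← Real.exp_sum, Finset.mul_sum, Finset.sum_neg_distrib]

theorem norm_exp_pi_I_mul (z : ℂ) (r : ℝ) :
    ‖Complex.exp (Real.pi * Complex.I * z * (r : ℂ))‖ = Real.exp (-(Real.pi * z.im * r)) := by
  rw [Complex.norm_exp]
  congr 1
  simp [Complex.mul_re, Complex.mul_im]

section general

variable {X : Type*} (N : X → ℝ) (a : X → ℂ)

/-- General theta-like series `∑ₓ a(x) exp(π i z N(x))`: summability. -/
theorem thetaLike_summable (ha : ∀ x, ‖a x‖ ≤ 1)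
    (hsum : ∀ t : ℝ, 0 < t → Summable fun x => Real.exp (-(t * N x))) (z : ℂ) (hz : 0 < z.im) :
    Summable (fun x => a x * Complex.exp (Real.pi * Complex.I * z * (N x : ℂ))) := by
  refine Summable.of_norm_bounded (hsum (Real.pi * z.im) (by positivity)) fun x => ?_
  rw [norm_mul, norm_exp_pi_I_mul]
  calc ‖a x‖ * Real.exp (-(Real.pi * z.im * N x)) ≤ 1 * Real.exp (-(Real.pi * z.im * N x)) := by
        gcongr; exact ha x
    _ = _ := by rw [one_mul]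

theorem thetaLike_differentiableOn (ha : ∀ x, ‖a x‖ ≤ 1) (hN : ∀ x, 0 ≤ N x)
    (hsum : ∀ t : ℝ, 0 < t → Summable fun x => Real.exp (-(t * N x))) {ε : ℝ} (hε : 0 < ε) :
    DifferentiableOn ℂ
      (fun w : ℂ => ∑' x, a x * Complex.exp (Real.pi * Complex.I * w * (N x : ℂ)))
      {w : ℂ | ε < w.im} := by
  refine Complex.differentiableOn_tsum_of_summable_norm (hsum (Real.pi * ε) (by positivity))
    (fun x => ?_) (isOpen_lt continuous_const Complex.continuous_im) (fun x w hw => ?_)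
  · exact (DifferentiableOn.cexp (by fun_prop)).const_mul _ |>.congr (fun w _ => rfl)
  · rw [norm_mul, norm_exp_pi_I_mul]
    have hw' : ε < w.im := hw
    calc ‖a x‖ * Real.exp (-(Real.pi * w.im * N x))
        ≤ 1 * Real.exp (-(Real.pi * ε * N x)) := by
          gcongr
          · exact ha x
          · exact hN x
      _ = _ := by rw [one_mul]

theorem thetaLike_mdiff (ha : ∀ x, ‖a x‖ ≤ 1) (hN : ∀ x, 0 ≤ N x)
    (hsum : ∀ t : ℝ, 0 < t → Summable fun x => Real.exp (-(t * N x))) :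
    MDiff (fun z : ℍ => ∑' x, a x * Complex.exp (Real.pi * Complex.I * z * (N x : ℂ))) := by
  rw [UpperHalfPlane.mdifferentiable_iff]
  intro w hw
  have hw' : 0 < w.im := hw
  have hd := thetaLike_differentiableOn N a ha hN hsum (half_pos hw')
  have hmem : {v : ℂ | w.im / 2 < v.im} ∈ nhds w :=
    (isOpen_lt continuous_const Complex.continuous_im).mem_nhds (by simp; linarith)
  have hda := (hd.differentiableAt hmem).differentiableWithinAt (s := {z : ℂ | 0 < z.im})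
  refine hda.congr_of_eventuallyEq ?_ ?_
  · filter_upwards [self_mem_nhdsWithin] with v hv
    simp only [Function.comp_apply]
    rw [ofComplex_apply_of_im_pos hv]
  · simp only [Function.comp_apply]
    rw [ofComplex_apply_of_im_pos hw']

theorem thetaLike_bdd (ha : ∀ x, ‖a x‖ ≤ 1) (hN : ∀ x, 0 ≤ N x)
    (hsum : ∀ t : ℝ, 0 < t → Summable fun x => Real.exp (-(t * N x))) :
    IsBoundedAtImInfty
      (fun z : ℍ => ∑' x, a x * Complex.exp (Real.pi * Complex.I * z * (N x : ℂ))) := by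
  rw [UpperHalfPlane.isBoundedAtImInfty_iff]
  refine ⟨∑' x, Real.exp (-(Real.pi * N x)), 1, fun z hz => ?_⟩
  have hs := thetaLike_summable N a ha hsum z z.im_pos
  refine (norm_tsum_le_tsum_norm hs.norm).trans ?_
  refine Summable.tsum_le_tsum (fun x => ?_) hs.norm (hsum Real.pi Real.pi_pos)
  rw [norm_mul, norm_exp_pi_I_mul]
  calc ‖a x‖ * Real.exp (-(Real.pi * (z : ℂ).im * N x))
      ≤ 1 * Real.exp (-(Real.pi * 1 * N x)) := by
        gcongr
        · exact ha x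
        · exact hN x
        · exact hz
    _ = _ := by rw [one_mul, mul_one]

end general

section quad

variable {ι : Type*} [Fintype ι]

/-- An even symmetric integral matrix takes even values `xᵀ A x`. -/
theorem even_quadForm (A : Matrix ι ι ℤ) (hsymm : A.IsSymm) (heven : ∀ i, Even (A i i))
    (x : ι → ℤ) : Even (x ⬝ᵥ A *ᵥ x) := by
  classical
  rw [even_iff_two_dvd]
  suffices hdvd : ((2 : ℕ) : ℤ) ∣ x ⬝ᵥ A *ᵥ x by exact_mod_cast hdvd
  rw [← ZMod.intCast_zmod_eq_zero_iff_dvd]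
  have hexp : x ⬝ᵥ A *ᵥ x = ∑ ij ∈ (Finset.univ : Finset (ι × ι)), x ij.1 * A ij.1 ij.2 * x ij.2 := by
    simp only [dotProduct, Matrix.mulVec, Finset.mul_sum]
    rw [← Finset.univ_product_univ, Finset.sum_product]
    refine Finset.sum_congr rfl fun i _ => Finset.sum_congr rfl fun j _ => by ring
  rw [hexp]
  push_cast
  refine Finset.sum_involution (fun ij _ => (ij.2, ij.1)) ?_ ?_ ?_ ?_
  · rintro ⟨i, j⟩ -
    simp only
    have : A j i = A i j := hsymm.apply i j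
    rw [this]
    have h2 : (2 : ZMod 2) = 0 := rfl
    linear_combination ((x i : ZMod 2) * (A i j : ZMod 2) * (x j : ZMod 2)) * h2
  · rintro ⟨i, j⟩ - hne heq
    simp only [Prod.mk.injEq] at heq
    obtain ⟨rfl, -⟩ := heq
    apply hne
    obtain ⟨b, hb⟩ := heven j
    rw [hb]
    push_cast
    have h2 : (2 : ZMod 2) = 0 := rfl
    linear_combination ((x j : ZMod 2) * (b : ZMod 2) * (x j : ZMod 2)) * h2
  · intro _ _; exact Finset.mem_univ _
  · rintro ⟨i, j⟩ -; rfl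

theorem cast_quadForm (A : Matrix ι ι ℤ) (x : ι → ℤ) :
    ((x ⬝ᵥ A *ᵥ x : ℤ) : ℝ) =
      (fun i => ((x i : ℤ) : ℝ)) ⬝ᵥ (A.map (Int.cast : ℤ → ℝ) *ᵥ fun i => ((x i : ℤ) : ℝ)) := by
  simp [dotProduct, Matrix.mulVec]

theorem quadForm_pos (A : Matrix ι ι ℤ) (hpos : (A.map (Int.cast : ℤ → ℝ)).PosDef)
    {x : ι → ℤ} (hx : x ≠ 0) : 0 < x ⬝ᵥ A *ᵥ x := by
  have hx' : (fun i => ((x i : ℤ) : ℝ)) ≠ 0 := by
    intro h
    apply hx
    ext i
    have := congrFun h i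
    simpa using this
  have := hpos.dotProduct_mulVec_pos hx'
  rw [star_trivial, ← cast_quadForm] at this
  exact_mod_cast this

theorem quadForm_nonneg (A : Matrix ι ι ℤ) (hpos : (A.map (Int.cast : ℤ → ℝ)).PosDef)
    (x : ι → ℤ) : 0 ≤ x ⬝ᵥ A *ᵥ x := by
  rcases eq_or_ne x 0 with rfl | hx
  · simp
  · exact (quadForm_pos A hpos hx).le

theorem quadForm_eq_zero_iff (A : Matrix ι ι ℤ) (hpos : (A.map (Int.cast : ℤ → ℝ)).PosDef)
    (x : ι → ℤ) : x ⬝ᵥ A *ᵥ x = 0 ↔ x = 0 := by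
  constructor
  · intro h
    by_contra hx
    exact (quadForm_pos A hpos hx).ne' h
  · rintro rfl; simp

/-- The level sets of a positive definite integral quadratic form are finite. -/
theorem finite_quadForm_le (A : Matrix ι ι ℤ) (hpos : (A.map (Int.cast : ℤ → ℝ)).PosDef)
    (m : ℤ) : {x : ι → ℤ | x ⬝ᵥ A *ᵥ x ≤ m}.Finite := by
  classical
  obtain ⟨c, hc, hcoer⟩ := posDef_coercive _ hpos
  obtain ⟨K, hK⟩ := exists_nat_ge ((m : ℝ) / c)
  refine Set.Finite.subset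
    (Fintype.piFinset fun _ : ι => Finset.Icc (-(K : ℤ)) K).finite_toSet fun x hx => ?_
  have hx : x ⬝ᵥ A *ᵥ x ≤ m := hx
  rw [Finset.mem_coe, Fintype.mem_piFinset]
  intro i
  rw [Finset.mem_Icc]
  have h1 := hcoer (fun i => ((x i : ℤ) : ℝ))
  rw [← cast_quadForm] at h1
  have h2 : ((x i : ℤ) : ℝ) ^ 2 ≤ ∑ j, ((x j : ℤ) : ℝ) ^ 2 :=
    Finset.single_le_sum (f := fun j => ((x j : ℤ) : ℝ) ^ 2) (fun j _ => sq_nonneg _)
      (Finset.mem_univ i)
  have h3 : ((x ⬝ᵥ A *ᵥ x : ℤ) : ℝ) ≤ m := by exact_mod_cast hx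
  have h4 : ((x i : ℤ) : ℝ) ^ 2 ≤ K := by
    have : c * ((x i : ℤ) : ℝ) ^ 2 ≤ m := by
      calc c * ((x i : ℤ) : ℝ) ^ 2 ≤ c * ∑ j, ((x j : ℤ) : ℝ) ^ 2 := by gcongr
        _ ≤ _ := h1
        _ ≤ m := h3
    have : ((x i : ℤ) : ℝ) ^ 2 ≤ m / c := by
      rw [le_div_iff₀ hc]; linarith
    linarith
  have h5 : (x i) ^ 2 ≤ (K : ℤ) := by exact_mod_cast h4
  have h6 : |x i| ≤ (x i) ^ 2 := by
    rw [← sq_abs]
    have := abs_nonneg (x i)
    nlinarith [Int.le_self_sq |x i|]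
  have h7 : |x i| ≤ (K : ℤ) := h6.trans h5
  exact abs_le.mp h7

end quad

/-- Expansion of the shifted quadratic form. -/
theorem quad_shift {ι : Type*} [Fintype ι] (M : Matrix ι ι ℝ) (hM : M.IsSymm) (x h : ι → ℝ) :
    (x + h) ⬝ᵥ (M *ᵥ (x + h)) = x ⬝ᵥ (M *ᵥ x) + 2 * (x ⬝ᵥ (M *ᵥ h)) + h ⬝ᵥ (M *ᵥ h) := by
  have h1 : h ⬝ᵥ (M *ᵥ x) = x ⬝ᵥ (M *ᵥ h) := by
    rw [Matrix.dotProduct_mulVec, ← Matrix.mulVec_transpose, hM.eq, dotProduct_comm]
  rw [Matrix.mulVec_add, dotProduct_add, add_dotProduct, add_dotProduct, h1]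
  ring

/-- The norm form of the theta series with characteristic is nonnegative and grows
quadratically. -/
theorem thetaNorm_bound {ι : Type*} [Fintype ι] [DecidableEq ι] (p : ℕ) (hp : p ≠ 0)
    (A B : Matrix ι ι ℤ) (hsymm : A.IsSymm)
    (hpos : (A.map (Int.cast : ℤ → ℝ)).PosDef) (hAB : A * B = (p : ℤ) • (1 : Matrix ι ι ℤ))
    (y : ι → ℤ) :
    ∃ c C : ℝ, 0 < c ∧ ∀ x : ι → ℤ,
      0 ≤ ((x ⬝ᵥ A *ᵥ x : ℤ) : ℝ) + 2 * ((x ⬝ᵥ y : ℤ) : ℝ) + ((y ⬝ᵥ B *ᵥ y : ℤ) : ℝ) / p ∧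
      c * ∑ i, ((x i : ℤ) : ℝ) ^ 2 - C ≤
        ((x ⬝ᵥ A *ᵥ x : ℤ) : ℝ) + 2 * ((x ⬝ᵥ y : ℤ) : ℝ) + ((y ⬝ᵥ B *ᵥ y : ℤ) : ℝ) / p := by
  obtain ⟨c, hc, hcoer⟩ := posDef_coercive _ hpos
  set M : Matrix ι ι ℝ := A.map (Int.cast : ℤ → ℝ) with hMdef
  set Br : Matrix ι ι ℝ := B.map (Int.cast : ℤ → ℝ) with hBdef
  have hMsymm : M.IsSymm := by
    unfold Matrix.IsSymm
    ext i j
    simp only [Matrix.transpose_apply, hMdef, Matrix.map_apply]
    exact congrArg _ (hsymm.apply i j)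
  have hpR : (p : ℝ) ≠ 0 := by exact_mod_cast hp
  have hMB : M * Br = (p : ℝ) • (1 : Matrix ι ι ℝ) := by
    have := congrArg (fun X : Matrix ι ι ℤ => X.map (Int.cast : ℤ → ℝ)) hAB
    simp only [Matrix.map_mul_intCast] at this
    rw [hMdef, hBdef, this]
    ext i j
    simp only [Matrix.map_apply, Matrix.smul_apply, Matrix.one_apply, smul_eq_mul]
    split_ifs <;> simp
  set yr : ι → ℝ := fun i => ((y i : ℤ) : ℝ) with hyr
  set h : ι → ℝ := (p : ℝ)⁻¹ • (Br *ᵥ yr) with hh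
  have hMh : M *ᵥ h = yr := by
    rw [hh, Matrix.mulVec_smul, Matrix.mulVec_mulVec, hMB, Matrix.smul_mulVec, Matrix.one_mulVec,
      smul_smul, inv_mul_cancel₀ hpR, one_smul]
  have hcast : ∀ x : ι → ℤ,
      ((x ⬝ᵥ A *ᵥ x : ℤ) : ℝ) + 2 * ((x ⬝ᵥ y : ℤ) : ℝ) + ((y ⬝ᵥ B *ᵥ y : ℤ) : ℝ) / p =
        ((fun i => ((x i : ℤ) : ℝ)) + h) ⬝ᵥ (M *ᵥ ((fun i => ((x i : ℤ) : ℝ)) + h)) := by
    intro x
    rw [quad_shift M hMsymm, hMh]
    have e1 : ((x ⬝ᵥ A *ᵥ x : ℤ) : ℝ) =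
        (fun i => ((x i : ℤ) : ℝ)) ⬝ᵥ (M *ᵥ (fun i => ((x i : ℤ) : ℝ))) := by
      simp [dotProduct, Matrix.mulVec, hMdef]
    have e2 : ((x ⬝ᵥ y : ℤ) : ℝ) = (fun i => ((x i : ℤ) : ℝ)) ⬝ᵥ yr := by
      simp [dotProduct, hyr]
    have e3 : ((y ⬝ᵥ B *ᵥ y : ℤ) : ℝ) / p = h ⬝ᵥ yr := by
      rw [hh, smul_dotProduct, dotProduct_comm]
      simp [dotProduct, Matrix.mulVec, hBdef, hyr, div_eq_inv_mul]
    rw [e1, e2, e3]
  refine ⟨c / 2, c * ∑ i, h i ^ 2, by positivity, fun x => ?_⟩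
  rw [hcast x]
  have hX := hcoer ((fun i => ((x i : ℤ) : ℝ)) + h)
  constructor
  · refine le_trans ?_ hX
    positivity
  · refine le_trans ?_ hX
    have key : ∀ i, ((x i : ℤ) : ℝ) ^ 2 / 2 - h i ^ 2 ≤ (((x i : ℤ) : ℝ) + h i) ^ 2 := by
      intro i
      nlinarith [sq_nonneg (((x i : ℤ) : ℝ) + 2 * h i)]
    have hsum : ∑ i, (((x i : ℤ) : ℝ) ^ 2 / 2 - h i ^ 2) ≤
        ∑ i, ((fun i => ((x i : ℤ) : ℝ)) + h) i ^ 2 :=
      Finset.sum_le_sum fun i _ => by simpa using key i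
    have hexp : c / 2 * ∑ i, ((x i : ℤ) : ℝ) ^ 2 - c * ∑ i, h i ^ 2 =
        c * ∑ i, (((x i : ℤ) : ℝ) ^ 2 / 2 - h i ^ 2) := by
      rw [Finset.sum_sub_distrib, ← Finset.sum_div]
      ring
    rw [hexp]
    exact mul_le_mul_of_nonneg_left hsum hc.le

end Fermat.Agent.S16.H437
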