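import Fermat.Agent.S16.H437.ThetaAn
import Fermat.Prelude.Def_FLTPrelim_Modularity

/-!
# S16 (helper556 route), WP TH / L-an: analytic facts on `thetaChar`, `thetaFun`, and the
`q`-expansion of `thetaFun`  (skeleton statement `qCoeff_theta`)

The local definitions `qf`, `thetaChar`, `thetaFun` are copies of the skeleton definitions
(`Fermat.Agent.S16.Skel`), with definitionally equal bodies.
-/

set_option autoImplicit false
set_option linter.style.haveILetI false

noncomputable section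

namespace Fermat.Agent.S16.H437

open Matrix UpperHalfPlane Function
open scoped Manifold

local notation "𝕢" => Function.Periodic.qParam

/-- quadratic form `xᵀ A x` (copy of the skeleton definition) -/
def qf (A : Matrix (Fin 4) (Fin 4) ℤ) (x : Fin 4 → ℤ) : ℤ := x ⬝ᵥ A.mulVec x

/-- Theta series with characteristic (copy of the skeleton definition). -/
def thetaChar (p : ℕ) (A B : Matrix (Fin 4) (Fin 4) ℤ) (y : Fin 4 → ℤ) (z : ℍ) : ℂ :=
  ∑' x : Fin 4 → ℤ,
    Complex.exp (Real.pi * Complex.I * z * ((qf A x : ℂ) + 2 * ((x ⬝ᵥ y : ℤ) : ℂ) + (qf B y : ℂ) / p))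

/-- The theta series (copy of the skeleton definition). -/
def thetaFun (A : Matrix (Fin 4) (Fin 4) ℤ) (z : ℍ) : ℂ :=
  ∑' x : Fin 4 → ℤ, Complex.exp (Real.pi * Complex.I * z * (qf A x : ℂ))

section growth

variable {n : ℕ}

/-- Gaussian growth implies summability of `exp (-t N)` for all `t > 0`. -/
theorem summable_exp_of_growth (N : (Fin n → ℤ) → ℝ) {c C : ℝ} (hc : 0 < c)
    (hN : ∀ x, c * ∑ i, ((x i : ℤ) : ℝ) ^ 2 - C ≤ N x) (t : ℝ) (ht : 0 < t) :
    Summable fun x => Real.exp (-(t * N x)) := by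
  have h1 := (summable_gauss n (mul_pos ht hc)).mul_left (Real.exp (t * C))
  refine Summable.of_nonneg_of_le (fun x => (Real.exp_pos _).le) (fun x => ?_) h1
  rw [← Real.exp_add]
  apply Real.exp_le_exp.mpr
  have := hN x
  nlinarith [mul_le_mul_of_nonneg_left this ht.le]

/-- The norm form of `thetaChar` (real valued). -/
def normForm (p : ℕ) (A B : Matrix (Fin n) (Fin n) ℤ) (y x : Fin n → ℤ) : ℝ :=
  ((x ⬝ᵥ A *ᵥ x : ℤ) : ℝ) + 2 * ((x ⬝ᵥ y : ℤ) : ℝ) + ((y ⬝ᵥ B *ᵥ y : ℤ) : ℝ) / p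

variable (p : ℕ) (A B : Matrix (Fin n) (Fin n) ℤ)

theorem normForm_nonneg (hp : p ≠ 0) (hsymm : A.IsSymm)
    (hpos : (A.map (Int.cast : ℤ → ℝ)).PosDef)
    (hAB : A * B = (p : ℤ) • (1 : Matrix (Fin n) (Fin n) ℤ)) (y x : Fin n → ℤ) :
    0 ≤ normForm p A B y x := by
  obtain ⟨c, C, -, h⟩ := thetaNorm_bound p hp A B hsymm hpos hAB y
  exact (h x).1

theorem summable_exp_normForm (hp : p ≠ 0) (hsymm : A.IsSymm)
    (hpos : (A.map (Int.cast : ℤ → ℝ)).PosDef)
    (hAB : A * B = (p : ℤ) • (1 : Matrix (Fin n) (Fin n) ℤ)) (y : Fin n → ℤ) (t : ℝ)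
    (ht : 0 < t) : Summable fun x => Real.exp (-(t * normForm p A B y x)) := by
  obtain ⟨c, C, hc, h⟩ := thetaNorm_bound p hp A B hsymm hpos hAB y
  exact summable_exp_of_growth _ hc (fun x => (h x).2) t ht

theorem summable_exp_quadForm (hpos : (A.map (Int.cast : ℤ → ℝ)).PosDef) (t : ℝ)
    (ht : 0 < t) : Summable fun x : Fin n → ℤ => Real.exp (-(t * ((x ⬝ᵥ A *ᵥ x : ℤ) : ℝ))) := by
  obtain ⟨c, hc, h⟩ := posDef_coercive _ hpos
  refine summable_exp_of_growth _ (C := 0) hc (fun x => ?_) t ht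
  rw [sub_zero, cast_quadForm]
  exact h _

end growth

section thetaChar

variable (p : ℕ) (A B : Matrix (Fin 4) (Fin 4) ℤ)

theorem thetaChar_term_eq (y x : Fin 4 → ℤ) (z : ℂ) :
    Complex.exp (Real.pi * Complex.I * z *
        ((qf A x : ℂ) + 2 * ((x ⬝ᵥ y : ℤ) : ℂ) + (qf B y : ℂ) / p)) =
      1 * Complex.exp (Real.pi * Complex.I * z * ((normForm p A B y x : ℝ) : ℂ)) := by
  rw [one_mul]
  congr 2
  simp only [normForm, qf]
  push_cast
  ring

/-- Summability of the terms of `thetaChar`. -/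
theorem summable_thetaChar_term (hp : p ≠ 0) (hsymm : A.IsSymm)
    (hpos : (A.map (Int.cast : ℤ → ℝ)).PosDef)
    (hAB : A * B = (p : ℤ) • (1 : Matrix (Fin 4) (Fin 4) ℤ)) (y : Fin 4 → ℤ) (z : ℍ) :
    Summable fun x : Fin 4 → ℤ => Complex.exp (Real.pi * Complex.I * z *
        ((qf A x : ℂ) + 2 * ((x ⬝ᵥ y : ℤ) : ℂ) + (qf B y : ℂ) / p)) := by
  simp only [thetaChar_term_eq]
  exact thetaLike_summable _ _ (fun _ => by simp)
    (summable_exp_normForm p A B hp hsymm hpos hAB y) z z.im_pos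

theorem thetaChar_eq (y : Fin 4 → ℤ) :
    thetaChar p A B y = fun z : ℍ =>
      ∑' x : Fin 4 → ℤ, 1 * Complex.exp (Real.pi * Complex.I * z * ((normForm p A B y x : ℝ) : ℂ)) := by
  funext z
  simp only [thetaChar, thetaChar_term_eq]

/-- `thetaChar` is holomorphic on `ℍ`. -/
theorem mdiff_thetaChar (hp : p ≠ 0) (hsymm : A.IsSymm)
    (hpos : (A.map (Int.cast : ℤ → ℝ)).PosDef)
    (hAB : A * B = (p : ℤ) • (1 : Matrix (Fin 4) (Fin 4) ℤ)) (y : Fin 4 → ℤ) :
    MDiff (thetaChar p A B y) := by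
  rw [thetaChar_eq]
  exact thetaLike_mdiff _ _ (fun _ => by simp) (normForm_nonneg p A B hp hsymm hpos hAB y)
    (summable_exp_normForm p A B hp hsymm hpos hAB y)

/-- `thetaChar` is bounded at `i∞`. -/
theorem isBoundedAtImInfty_thetaChar (hp : p ≠ 0) (hsymm : A.IsSymm)
    (hpos : (A.map (Int.cast : ℤ → ℝ)).PosDef)
    (hAB : A * B = (p : ℤ) • (1 : Matrix (Fin 4) (Fin 4) ℤ)) (y : Fin 4 → ℤ) :
    IsBoundedAtImInfty (thetaChar p A B y) := by
  rw [thetaChar_eq]
  exact thetaLike_bdd _ _ (fun _ => by simp) (normForm_nonneg p A B hp hsymm hpos hAB y)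
    (summable_exp_normForm p A B hp hsymm hpos hAB y)

end thetaChar

section qexp

variable (A : Matrix (Fin 4) (Fin 4) ℤ)

/-- Half of the value of the quadratic form, as a natural number. -/
def halfNorm (x : Fin 4 → ℤ) : ℕ := (qf A x / 2).toNat

/-- Representation numbers `r_A(m) = #{x : xᵀ A x = 2 m}`. -/
def repNum (m : ℕ) : ℕ := Nat.card (halfNorm A ⁻¹' {m})

variable {A}

theorem qf_eq_two_mul_halfNorm (hsymm : A.IsSymm) (heven : ∀ i, Even (A i i))
    (hpos : (A.map (Int.cast : ℤ → ℝ)).PosDef) (x : Fin 4 → ℤ) :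
    qf A x = 2 * (halfNorm A x : ℤ) := by
  have h1 : Even (qf A x) := even_quadForm A hsymm heven x
  have h2 : 0 ≤ qf A x := quadForm_nonneg A hpos x
  obtain ⟨b, hb⟩ := h1
  unfold halfNorm
  rw [Int.toNat_of_nonneg (by omega)]
  omega

theorem halfNorm_eq_zero_iff (hsymm : A.IsSymm) (heven : ∀ i, Even (A i i))
    (hpos : (A.map (Int.cast : ℤ → ℝ)).PosDef) (x : Fin 4 → ℤ) :
    halfNorm A x = 0 ↔ x = 0 := by
  rw [← quadForm_eq_zero_iff A hpos x]
  have := qf_eq_two_mul_halfNorm hsymm heven hpos x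
  unfold qf at this
  constructor
  · intro h; rw [this, h]; simp
  · intro h; rw [h] at this; omega

theorem finite_halfNorm_fiber (hsymm : A.IsSymm) (heven : ∀ i, Even (A i i))
    (hpos : (A.map (Int.cast : ℤ → ℝ)).PosDef) (m : ℕ) : (halfNorm A ⁻¹' {m}).Finite := by
  refine (finite_quadForm_le A hpos (2 * m)).subset fun x hx => ?_
  have hx' : halfNorm A x = m := hx
  have := qf_eq_two_mul_halfNorm hsymm heven hpos x
  unfold qf at this
  show x ⬝ᵥ A *ᵥ x ≤ 2 * m
  rw [this, hx']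

theorem repNum_zero (hsymm : A.IsSymm) (heven : ∀ i, Even (A i i))
    (hpos : (A.map (Int.cast : ℤ → ℝ)).PosDef) : repNum A 0 = 1 := by
  unfold repNum
  have : halfNorm A ⁻¹' {0} = {0} := by
    ext x
    simp only [Set.mem_preimage, Set.mem_singleton_iff]
    exact halfNorm_eq_zero_iff hsymm heven hpos x
  rw [this]
  simp

theorem halfNorm_neg (x : Fin 4 → ℤ) : halfNorm A (-x) = halfNorm A x := by
  unfold halfNorm qf
  rw [Matrix.mulVec_neg, neg_dotProduct_neg]

theorem even_repNum (hsymm : A.IsSymm) (heven : ∀ i, Even (A i i))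
    (hpos : (A.map (Int.cast : ℤ → ℝ)).PosDef) {m : ℕ} (hm : 1 ≤ m) : Even (repNum A m) := by
  classical
  haveI : Fintype (halfNorm A ⁻¹' {m}) := (finite_halfNorm_fiber hsymm heven hpos m).fintype
  unfold repNum
  rw [Nat.card_eq_fintype_card]
  let f : Function.End (halfNorm A ⁻¹' {m}) := fun x =>
    ⟨-x.1, by
      have := x.2
      simp only [Set.mem_preimage, Set.mem_singleton_iff] at this ⊢
      rw [halfNorm_neg, this]⟩
  have hf : f ^ 2 ^ 1 = 1 := by
    funext x
    simp only [pow_one, pow_two]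
    apply Subtype.ext
    show -(-(x : Fin 4 → ℤ)) = x
    exact neg_neg _
  haveI : Fact (Nat.Prime 2) := ⟨Nat.prime_two⟩
  have h := Equiv.Perm.card_fixedPoints_modEq (p := 2) (n := 1) hf
  have hfix : IsEmpty (Function.fixedPoints f) := by
    constructor
    rintro ⟨⟨x, hx⟩, hfx⟩
    have h1 : -x = x := congrArg Subtype.val hfx
    have h2 : x = 0 := by
      ext i
      have := congrFun h1 i
      simp only [Pi.neg_apply, Pi.zero_apply] at this ⊢
      omega
    have h3 : halfNorm A x = m := hx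
    rw [h2, (halfNorm_eq_zero_iff hsymm heven hpos 0).mpr rfl] at h3
    omega
  have h0 : Fintype.card (Function.fixedPoints f) = 0 := Fintype.card_eq_zero
  rw [h0] at h
  exact Nat.even_iff.mpr h

theorem thetaFun_term_eq (hsymm : A.IsSymm) (heven : ∀ i, Even (A i i))
    (hpos : (A.map (Int.cast : ℤ → ℝ)).PosDef) (x : Fin 4 → ℤ) (z : ℂ) :
    Complex.exp (Real.pi * Complex.I * z * (qf A x : ℂ)) = 𝕢 1 z ^ halfNorm A x := by
  rw [qf_eq_two_mul_halfNorm hsymm heven hpos x, Function.Periodic.qParam, ← Complex.exp_nat_mul]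
  congr 1
  push_cast
  ring

theorem thetaFun_term_eq' (x : Fin 4 → ℤ) (z : ℂ) :
    Complex.exp (Real.pi * Complex.I * z * (qf A x : ℂ)) =
      1 * Complex.exp (Real.pi * Complex.I * z * (((x ⬝ᵥ A *ᵥ x : ℤ) : ℝ) : ℂ)) := by
  rw [one_mul]
  simp only [qf]
  push_cast
  rfl

/-- Summability of the terms of `thetaFun`. -/
theorem summable_thetaFun_term (hpos : (A.map (Int.cast : ℤ → ℝ)).PosDef) (z : ℍ) :
    Summable fun x : Fin 4 → ℤ => Complex.exp (Real.pi * Complex.I * z * (qf A x : ℂ)) := by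
  simp only [thetaFun_term_eq']
  exact thetaLike_summable _ _ (fun _ => by simp) (summable_exp_quadForm A hpos) z z.im_pos

theorem thetaFun_eq : thetaFun A = fun z : ℍ =>
    ∑' x : Fin 4 → ℤ,
      1 * Complex.exp (Real.pi * Complex.I * z * (((x ⬝ᵥ A *ᵥ x : ℤ) : ℝ) : ℂ)) := by
  funext z
  simp only [thetaFun, thetaFun_term_eq']

/-- `thetaFun` is holomorphic on `ℍ`. -/
theorem mdiff_thetaFun (hpos : (A.map (Int.cast : ℤ → ℝ)).PosDef) : MDiff (thetaFun A) := by
  rw [thetaFun_eq]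
  exact thetaLike_mdiff _ _ (fun _ => by simp)
    (fun x => by exact_mod_cast quadForm_nonneg A hpos x) (summable_exp_quadForm A hpos)

/-- `thetaFun` is bounded at `i∞`. -/
theorem isBoundedAtImInfty_thetaFun (hpos : (A.map (Int.cast : ℤ → ℝ)).PosDef) :
    IsBoundedAtImInfty (thetaFun A) := by
  rw [thetaFun_eq]
  exact thetaLike_bdd _ _ (fun _ => by simp)
    (fun x => by exact_mod_cast quadForm_nonneg A hpos x) (summable_exp_quadForm A hpos)

/-- The `q`-expansion of `thetaFun` as a convergent series: `θ_A = ∑ₘ r_A(m) qᵐ`. -/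
theorem hasSum_thetaFun (hsymm : A.IsSymm) (heven : ∀ i, Even (A i i))
    (hpos : (A.map (Int.cast : ℤ → ℝ)).PosDef) (z : ℍ) :
    HasSum (fun m : ℕ => (repNum A m : ℂ) • 𝕢 1 (z : ℂ) ^ m) (thetaFun A z) := by
  have hs := (summable_thetaFun_term hpos z).hasSum
  have h := hs.tsum_fiberwise (halfNorm A)
  refine (h.congr_fun ?_ : _)
  intro m
  have hfin : Finite (halfNorm A ⁻¹' {m}) := (finite_halfNorm_fiber hsymm heven hpos m).to_subtype
  have : ∀ b : halfNorm A ⁻¹' {m},
      Complex.exp (Real.pi * Complex.I * z * (qf A b.1 : ℂ)) = 𝕢 1 (z : ℂ) ^ m := by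
    intro b
    rw [thetaFun_term_eq hsymm heven hpos, b.2]
  simp only [this, tsum_const, repNum, nsmul_eq_mul, smul_eq_mul]

theorem periodic_thetaFun (hsymm : A.IsSymm) (heven : ∀ i, Even (A i i))
    (hpos : (A.map (Int.cast : ℤ → ℝ)).PosDef) :
    Function.Periodic (thetaFun A ∘ ofComplex) (1 : ℝ) := by
  intro w
  show thetaFun A (ofComplex (w + (1 : ℝ))) = thetaFun A (ofComplex w)
  rcases lt_or_ge 0 w.im with hw | hw
  · have hw' : 0 < (w + (1 : ℝ)).im := by simpa using hw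
    rw [ofComplex_apply_of_im_pos hw, ofComplex_apply_of_im_pos hw']
    have h1 := hasSum_thetaFun hsymm heven hpos ⟨w + (1 : ℝ), hw'⟩
    have h2 := hasSum_thetaFun hsymm heven hpos ⟨w, hw⟩
    have hq : 𝕢 1 (w + (1 : ℝ)) = 𝕢 1 w := by
      unfold Function.Periodic.qParam
      have : 2 * (Real.pi : ℂ) * Complex.I * (w + ((1 : ℝ) : ℂ)) / ((1 : ℝ) : ℂ)
          = 2 * Real.pi * Complex.I * w / ((1 : ℝ) : ℂ) + 2 * Real.pi * Complex.I := by
        push_cast
        ring
      rw [this, Complex.exp_add, Complex.exp_two_pi_mul_I, mul_one]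
    change HasSum (fun m ↦ (repNum A m : ℂ) • 𝕢 1 (w + (1 : ℝ)) ^ m) _ at h1
    rw [hq] at h1
    exact h1.unique h2
  · have hw' : (w + (1 : ℝ)).im ≤ 0 := by simpa using hw
    rw [ofComplex_apply_eq_of_im_nonpos hw' hw]

/-- The `q`-expansion coefficients of `thetaFun` are the representation numbers. -/
theorem qExpansion_thetaFun_coeff (hsymm : A.IsSymm) (heven : ∀ i, Even (A i i))
    (hpos : (A.map (Int.cast : ℤ → ℝ)).PosDef) (m : ℕ) :
    (qExpansion 1 (thetaFun A)).coeff m = (repNum A m : ℂ) := by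
  let _inst : FunLike (ℍ → ℂ) ℍ ℂ := ⟨fun f => f, fun _ _ h => h⟩
  have han : AnalyticAt ℂ (cuspFunction 1 (thetaFun A)) 0 :=
    analyticAt_cuspFunction_zero one_pos (periodic_thetaFun hsymm heven hpos)
      (mdiff_thetaFun hpos) (isBoundedAtImInfty_thetaFun hpos)
  exact (qExpansion_coeff_unique (F := ℍ → ℂ) (thetaFun A) one_pos han
    (hasSum_thetaFun hsymm heven hpos) m).symm

/-- **WP TH (q-expansion)**, skeleton statement `qCoeff_theta` (for the local copy `thetaFun`):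
the constant term of `θ_A` is `1` and all higher coefficients are even integers. -/
theorem qCoeff_thetaFun (hsymm : A.IsSymm) (heven : ∀ i, Even (A i i))
    (hpos : (A.map (Int.cast : ℤ → ℝ)).PosDef) :
    ModularFormClass.qCoeff (thetaFun A) 0 = 1 ∧
      ∀ k : ℕ, 1 ≤ k → ∃ m : ℤ, ModularFormClass.qCoeff (thetaFun A) k = 2 * (m : ℂ) := by
  unfold ModularFormClass.qCoeff
  refine ⟨?_, fun k hk => ?_⟩
  · rw [qExpansion_thetaFun_coeff hsymm heven hpos, repNum_zero hsymm heven hpos]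
    simp
  · obtain ⟨r, hr⟩ := even_repNum hsymm heven hpos hk
    refine ⟨r, ?_⟩
    rw [qExpansion_thetaFun_coeff hsymm heven hpos, hr]
    push_cast
    ring

/-- `thetaFun` is not identically zero. -/
theorem thetaFun_ne_zero (hsymm : A.IsSymm) (heven : ∀ i, Even (A i i))
    (hpos : (A.map (Int.cast : ℤ → ℝ)).PosDef) : thetaFun A ≠ 0 := by
  intro h
  have h1 := (qCoeff_thetaFun hsymm heven hpos).1
  rw [h] at h1
  unfold ModularFormClass.qCoeff at h1
  have h0 : qExpansion 1 (0 : ℍ → ℂ) = 0 := by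
    have := UpperHalfPlane.qExpansion_zero (h := 1)
    simpa using this
  rw [h0] at h1
  simp at h1

end qexp


end Fermat.Agent.S16.H437
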